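import Mathlib
import Fermat.Agent.LT.T3.R.Top

/-!
# Row LT, tower T3, station T3.18R, leaf T3.18R.12 `R.InHaarRC` (helper247, registry row 2345)

OFF-MAIN.  No hole, nothing assumed.  ADDITIVE (new names only).

    inHaarRC247 : Fermat.Agent.LT.T3.R.InHaarRC      (VERBATIM, unconditional)

`GL₂(ℝ)` (units of the matrix ring with the topology of units) is a locally compact group:
`Units.embedProduct` is a closed embedding into `M₂(ℝ) × M₂(ℝ)ᵐᵒᵖ`, which is locally compact
(finite product of copies of `ℝ`).  The Haar measure is `MeasureTheory.Measure.haar` for the Borel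
σ-algebra.  The same proof works for every `GL (Fin n) 𝕜`, `𝕜` a locally compact Hausdorff
topological ring (`locallyCompactSpace_GL247`, `exists_haar_GL247`).
-/

set_option autoImplicit false
set_option linter.style.haveILetI false

open MeasureTheory

noncomputable section

namespace Fermat.Agent.LT.T3.R.H247

/-- The matrix ring over a locally compact ring is locally compact (finite index types). -/
theorem locallyCompactSpace_matrix247 (n : Type) [Finite n] (𝕜 : Type) [TopologicalSpace 𝕜]
    [LocallyCompactSpace 𝕜] : LocallyCompactSpace (Matrix n n 𝕜) :=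
  inferInstanceAs (LocallyCompactSpace (n → n → 𝕜))

/-- `GL_n(𝕜)` is locally compact for a locally compact Hausdorff topological ring `𝕜`. -/
theorem locallyCompactSpace_GL247 (n : Type) [Fintype n] [DecidableEq n] (𝕜 : Type)
    [CommRing 𝕜] [TopologicalSpace 𝕜] [IsTopologicalRing 𝕜] [T2Space 𝕜]
    [LocallyCompactSpace 𝕜] : LocallyCompactSpace (GL n 𝕜) :=
  haveI : LocallyCompactSpace (Matrix n n 𝕜) := locallyCompactSpace_matrix247 n 𝕜
  haveI : LocallyCompactSpace (Matrix n n 𝕜)ᵐᵒᵖ :=
    (MulOpposite.opHomeomorph (M := Matrix n n 𝕜)).symm.isClosedEmbedding.locallyCompactSpace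
  (Units.isClosedEmbedding_embedProduct (α := Matrix n n 𝕜)).locallyCompactSpace

/-- A Haar measure exists on `GL_n(𝕜)` with the Borel σ-algebra. -/
theorem exists_haar_GL247 (n : Type) [Fintype n] [DecidableEq n] (𝕜 : Type)
    [CommRing 𝕜] [TopologicalSpace 𝕜] [IsTopologicalRing 𝕜] [T2Space 𝕜]
    [LocallyCompactSpace 𝕜] :
    letI : MeasurableSpace (GL n 𝕜) := borel (GL n 𝕜)
    ∃ μ : Measure (GL n 𝕜), μ.IsHaarMeasure := by
  letI : MeasurableSpace (GL n 𝕜) := borel (GL n 𝕜)
  haveI : BorelSpace (GL n 𝕜) := ⟨rfl⟩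
  haveI : LocallyCompactSpace (GL n 𝕜) := locallyCompactSpace_GL247 n 𝕜
  exact ⟨Measure.haar, inferInstance⟩

/-- **LEAF T3.18R.12 = `R.InHaarRC`, VERBATIM.** -/
theorem inHaarRC247 : Fermat.Agent.LT.T3.R.InHaarRC :=
  exists_haar_GL247 (Fin 2) ℝ

example : Fermat.Agent.LT.T3.R.InHaarRC := inHaarRC247

end Fermat.Agent.LT.T3.R.H247

end
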